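import Mathlib
import Fermat.Prelude.Def_CuspForm_IntegralLattice
import Fermat.Prelude.Def_FormalHecke_Eigensystem
import Fermat.Prelude.Def_ModularForm_EisensteinChiNegThree
import Fermat.Prelude.Def_FLTPrelim_Modularity
import Fermat.Prelude.Def_CuspForm_HeckeAlgebra
import Fermat.Prelude.Def_CuspForm_IntegralStructure
import Fermat.Prelude.Thm_CuspForm_intLattice_fg
import Fermat.Prelude.Thm_CuspForm_mem_intLattice_of_mem_heckeAlgebra
import Fermat.Prelude.Thm_ModularFormClass_qCoeff_heckeT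
import Fermat.Prelude.Thm_ModularFormClass_qCoeff_heckeU
import Fermat.Prelude.Thm_CongruenceSubgroup_one_mem_strictPeriods_Gamma0

set_option autoImplicit false

namespace Fermat.Agent.S49

open ModularFormClass CongruenceSubgroup UpperHalfPlane EisensteinWeightOne

noncomputable section

variable {N : ℕ}

local notation "Γ₀(" N ")" => CongruenceSubgroup.Gamma0 N

theorem hΓ (N : ℕ) :
    (1 : ℝ) ∈ (Subgroup.map (Matrix.SpecialLinearGroup.mapGL ℝ) Γ₀(N)).strictPeriods :=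
  CongruenceSubgroup.one_mem_strictPeriods_Gamma0 N

theorem qCoeff_add (f g : CuspForm Γ₀(N) 2) (n : ℕ) :
    qCoeff ⇑(f + g) n = qCoeff ⇑f n + qCoeff ⇑g n :=
  P2MW.S_CuspForm_intLattice_fg.W3WsD.qCoeff_add f g n

theorem qCoeff_smul (c : ℂ) (f : CuspForm Γ₀(N) 2) (n : ℕ) :
    qCoeff ⇑(c • f) n = c * qCoeff ⇑f n := by
  have h1 : ⇑(c • f) = c • ⇑f := by
    ext z
    simp
  simp only [qCoeff, h1]
  rw [ModularForm.qExpansion_smul one_pos (hΓ N) c f]
  simp

theorem qCoeff_cusp_zero (f : CuspForm Γ₀(N) 2) : qCoeff ⇑f 0 = 0 :=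
  CuspFormClass.qExpansion_coeff_zero f one_pos (hΓ N)

theorem eq_zero_of_qCoeff [NeZero N] (f : CuspForm Γ₀(N) 2) (h : ∀ n, qCoeff ⇑f n = 0) :
    f = 0 := by
  apply P2MW.S_CuspForm_intLattice_fg.W3WsD.trunc_injective N 2
  rw [map_zero]
  funext i
  exact h i

theorem mem_intLattice_iff (f : CuspForm Γ₀(N) 2) :
    f ∈ CuspForm.intLattice N 2 ↔ ∀ n : ℕ, ∃ m : ℤ, qCoeff f n = (m : ℂ) :=
  P2MW.S_CuspForm_intLattice_fg.W3WsD.mem_intLattice_iff f

theorem qCoeff_heckeTLin {ℓ : ℕ} (hℓ : ℓ.Prime) (hℓN : ¬ ℓ ∣ N) (f : CuspForm Γ₀(N) 2) (n : ℕ) :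
    qCoeff ⇑(CuspForm.heckeTLin 2 hℓ hℓN f) n =
      qCoeff ⇑f (ℓ * n) + (ℓ : ℂ) * (if ℓ ∣ n then qCoeff ⇑f (n / ℓ) else 0) := by
  rw [CuspForm.coe_heckeTLin_apply, ModularFormClass.qCoeff_heckeT f (hΓ N) hℓ.ne_zero n,
    ModularForm.coeffHeckeT_apply, mul_comm n ℓ]
  split_ifs <;> simp

theorem qCoeff_heckeULin [NeZero N] {q : ℕ} (hq : q.Prime) (hqN : q ∣ N) (f : CuspForm Γ₀(N) 2)
    (n : ℕ) :
    qCoeff ⇑(CuspForm.heckeULin 2 hqN f) n = qCoeff ⇑f (q * n) := by
  rw [CuspForm.coe_heckeULin_apply, ModularFormClass.qCoeff_heckeU f (hΓ N) hq.ne_zero n,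
    ModularForm.coeffHeckeU_apply, mul_comm n q]

theorem qIntegralSet_subset : CuspForm.qIntegralSet N ⊆ (CuspForm.intLattice N 2 : Set _) := by
  intro f hf
  rw [SetLike.mem_coe, mem_intLattice_iff]
  intro n
  obtain ⟨m, hm⟩ := Subring.mem_bot.mp (hf n)
  exact ⟨m, hm.symm⟩

theorem span_intLattice_eq_top (h : CuspForm.HasIntegralBasis N) :
    Submodule.span ℂ (CuspForm.intLattice N 2 : Set (CuspForm Γ₀(N) 2)) = ⊤ := by
  rw [eq_top_iff, ← h]
  exact Submodule.span_mono qIntegralSet_subset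

theorem finiteDimensional_of_hasIntegralBasis [NeZero N] (h : CuspForm.HasIntegralBasis N) :
    FiniteDimensional ℂ (CuspForm Γ₀(N) 2) := by
  obtain ⟨s, hs⟩ := CuspForm.intLattice_fg N 2
  refine ⟨⟨s, ?_⟩⟩
  rw [eq_top_iff, ← span_intLattice_eq_top h, Submodule.span_le, ← hs]
  intro x hx
  exact Submodule.span_subset_span ℤ ℂ _ hx

theorem heckeAlgebra_finite [NeZero N] (h : CuspForm.HasIntegralBasis N) (S : Set ℕ) :
    Module.Finite ℤ (CuspForm.heckeAlgebra N 2 S) := by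
  have hfin : Module.Finite ℤ (CuspForm.intLattice N 2) :=
    Module.Finite.iff_fg.mpr (CuspForm.intLattice_fg N 2)
  have htf0 : IsAddTorsionFree (CuspForm Γ₀(N) 2) := IsAddTorsionFree.of_isTorsionFree ℂ _
  have htf : Module.IsTorsionFree ℤ (CuspForm.intLattice N 2) := inferInstance
  have hfree : Module.Free ℤ (CuspForm.intLattice N 2) := inferInstance
  let r : CuspForm.heckeAlgebra N 2 S →ₗ[ℤ]
      (CuspForm.intLattice N 2 →ₗ[ℤ] CuspForm.intLattice N 2) :=
    { toFun := fun t =>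
        { toFun := fun u => ⟨(t : Module.End ℂ (CuspForm Γ₀(N) 2)) u,
            CuspForm.mem_intLattice_of_mem_heckeAlgebra (by norm_num) t.2 u.2⟩
          map_add' := fun u v => Subtype.ext (by simp)
          map_smul' := fun c u => Subtype.ext (by simp) }
      map_add' := fun s t => by
        ext u
        simp
      map_smul' := fun c t => by
        ext u
        simp }
  have hr : Function.Injective r := by
    rw [injective_iff_map_eq_zero]
    intro t ht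
    apply Subtype.ext
    apply LinearMap.ext_on (span_intLattice_eq_top h)
    intro u hu
    have := congrArg (fun g => ((g ⟨u, hu⟩ : CuspForm.intLattice N 2) : CuspForm Γ₀(N) 2)) ht
    simpa [r] using this
  exact Module.Finite.of_injective r hr

theorem chiNegThree_cong (ℓ : ℕ) : (3 : ℤ) ∣ (ℓ : ℤ) - chiNegThree ℓ := by
  unfold chiNegThree
  have h := Nat.mod_lt ℓ (by norm_num : 0 < 3)
  split_ifs <;> omega

theorem bridgeProduct_coeff_cong (a : ℕ → ℤ) (n : ℕ) :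
    (3 : ℤ) ∣ (bridgeProduct a).coeff n - a n := by
  have h1 : e1Chi3In ℤ = 1 + PowerSeries.C (3 : ℤ) *
      PowerSeries.mk (fun n => if n = 0 then 0 else 2 * sigmaChi n) := by
    ext k
    simp only [e1Chi3In, e1Chi3, PowerSeries.coeff_map, PowerSeries.coeff_mk, map_add,
      PowerSeries.coeff_one, PowerSeries.coeff_C_mul]
    split_ifs <;> simp <;> ring
  unfold bridgeProduct
  rw [h1, mul_add, mul_one, map_add, PowerSeries.coeff_mk, mul_left_comm,
    PowerSeries.coeff_C_mul]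
  simp

theorem qCoeff_sub (f g : CuspForm Γ₀(N) 2) (n : ℕ) :
    qCoeff ⇑(f - g) n = qCoeff ⇑f n - qCoeff ⇑g n := by
  have : f - g = f + (-1 : ℂ) • g := by
    rw [_root_.neg_smul, one_smul, sub_eq_add_neg]
  rw [this, qCoeff_add, qCoeff_smul]
  ring

theorem exists_third (u : CuspForm Γ₀(N) 2) (h : ∀ n, ∃ m : ℤ, qCoeff ⇑u n = 3 * (m : ℂ)) :
    ∃ g ∈ CuspForm.intLattice N 2, u = (3 : ℂ) • g := by
  refine ⟨(1 / 3 : ℂ) • u, ?_, ?_⟩
  · rw [mem_intLattice_iff]
    intro n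
    obtain ⟨m, hm⟩ := h n
    refine ⟨m, ?_⟩
    rw [qCoeff_smul, hm]
    ring
  · rw [smul_smul]
    norm_num

end

end Fermat.Agent.S49
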