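import Mathlib

set_option autoImplicit false

namespace Fermat.Agent.S49

open Module

/-- A commuting family of endomorphisms stabilising a nonzero subspace of a finite-dimensional
complex vector space has a common eigenvector in that subspace. -/
theorem exists_common_eigenvector {V : Type*} [AddCommGroup V] [Module ℂ V]
    [FiniteDimensional ℂ V] (T : Set (Module.End ℂ V))
    (hcomm : ∀ s ∈ T, ∀ t ∈ T, Commute s t) :
    ∀ (n : ℕ) (W : Submodule ℂ V), finrank ℂ W = n → W ≠ ⊥ →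
      (∀ t ∈ T, ∀ w ∈ W, t w ∈ W) →
      ∃ w ∈ W, w ≠ 0 ∧ ∀ t ∈ T, ∃ c : ℂ, t w = c • w := by
  intro n
  induction n using Nat.strong_induction_on with
  | _ n ih =>
    intro W hn hW hstab
    by_cases h : ∀ t ∈ T, ∃ c : ℂ, ∀ w ∈ W, t w = c • w
    · obtain ⟨w, hw, hw0⟩ := Submodule.exists_mem_ne_zero_of_ne_bot hW
      exact ⟨w, hw, hw0, fun t ht => (h t ht).imp fun c hc => hc w hw⟩
    · push Not at h
      obtain ⟨t, ht, hns⟩ := h
      have hmaps : ∀ w ∈ W, t w ∈ W := hstab t ht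
      have : Nontrivial W := Submodule.nontrivial_iff_ne_bot.mpr hW
      obtain ⟨c, hc⟩ := Module.End.exists_eigenvalue (t.restrict hmaps)
      obtain ⟨v, hv⟩ := hc.exists_hasEigenvector
      set W' : Submodule ℂ V := W ⊓ Module.End.eigenspace t c with hW'
      have hvW' : (v : V) ∈ W' := by
        refine Submodule.mem_inf.mpr ⟨v.2, ?_⟩
        rw [Module.End.mem_eigenspace_iff]
        have := hv.apply_eq_smul
        have h2 := congrArg Subtype.val this
        simpa using h2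
      have hv0 : (v : V) ≠ 0 := by
        intro h0
        exact hv.2 (Subtype.ext h0)
      have hW'bot : W' ≠ ⊥ := by
        intro hb
        rw [hb] at hvW'
        exact hv0 (by simpa using hvW')
      have hlt : W' < W := by
        refine lt_of_le_of_ne inf_le_left ?_
        intro heq
        obtain ⟨w, hw, hne⟩ := hns c
        apply hne
        rw [← heq] at hw
        exact Module.End.mem_eigenspace_iff.mp (Submodule.mem_inf.mp hw).2
      have hfr : finrank ℂ W' < n := hn ▸ Submodule.finrank_lt_finrank_of_lt hlt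
      have hstab' : ∀ s ∈ T, ∀ w ∈ W', s w ∈ W' := by
        intro s hs w hw
        have hw' := Submodule.mem_inf.mp hw
        refine Submodule.mem_inf.mpr ⟨hstab s hs w hw'.1, ?_⟩
        rw [Module.End.mem_eigenspace_iff]
        have h1 : t w = c • w := Module.End.mem_eigenspace_iff.mp hw'.2
        have h2 : t (s w) = s (t w) := by
          have := hcomm t ht s hs
          have h3 := congrArg (fun g : Module.End ℂ V => g w) this.eq
          simpa [Module.End.mul_apply] using h3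
        rw [h2, h1, map_smul]
      obtain ⟨w, hw, hw0, hwe⟩ := ih _ hfr W' rfl hW'bot hstab'
      exact ⟨w, (Submodule.mem_inf.mp hw).1, hw0, hwe⟩

/-- Abstract Deligne–Serre lifting, part 1: a commutative ring `𝕋`, finite over `ℤ`, acting
faithfully on a finite-dimensional complex vector space: below every prime of `𝕋` there is
the kernel of an eigensystem occurring in `V`. -/
theorem exists_eigensystem_le_prime {V : Type*} [AddCommGroup V] [Module ℂ V]
    [FiniteDimensional ℂ V] {𝕋 : Type*} [CommRing 𝕋] [Module.Finite ℤ 𝕋]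
    (ι : 𝕋 →+* Module.End ℂ V) (hι : Function.Injective ι)
    (𝔪 : Ideal 𝕋) [𝔪.IsPrime] :
    ∃ (μ : 𝕋 →+* ℂ) (v : V), v ≠ 0 ∧ (∀ t, ι t v = μ t • v) ∧ RingHom.ker μ ≤ 𝔪 := by
  have hnoeth : IsNoetherianRing 𝕋 := IsNoetherianRing.of_finite ℤ 𝕋
  -- a minimal prime below `𝔪`
  obtain ⟨𝔭, h𝔭min, h𝔭le⟩ := Ideal.exists_minimalPrimes_le (I := (⊥ : Ideal 𝕋)) (J := 𝔪) bot_le
  have h𝔭prime : 𝔭.IsPrime := h𝔭min.1.1
  -- it is an associated prime of `𝕋`
  have hass : 𝔭 ∈ associatedPrimes 𝕋 𝕋 := by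
    apply Module.associatedPrimes.minimalPrimes_annihilator_subset_associatedPrimes 𝕋 𝕋
    have : Module.annihilator 𝕋 𝕋 = ⊥ := by
      rw [eq_bot_iff]
      intro x hx
      have := Module.mem_annihilator.mp hx 1
      simpa using this
    rw [this]
    exact h𝔭min
  obtain ⟨-, x, hx⟩ := (isAssociatedPrime_iff (I := 𝔭) (M := 𝕋)).mp hass
  have hmem : ∀ t : 𝕋, t ∈ 𝔭 ↔ t * x = 0 := by
    intro t
    rw [hx, Submodule.mem_colon_singleton]
    simp
  have hx0 : x ≠ 0 := by
    intro h0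
    apply h𝔭prime.ne_top
    rw [Ideal.eq_top_iff_one, hmem, h0, mul_zero]
  -- the subspace `x V`
  set W : Submodule ℂ V := LinearMap.range (ι x) with hW
  have hWbot : W ≠ ⊥ := by
    intro hb
    rw [hW, LinearMap.range_eq_bot] at hb
    exact hx0 (hι (by rw [hb, map_zero]))
  have hcomm : ∀ s ∈ Set.range ι, ∀ t ∈ Set.range ι, Commute s t := by
    rintro _ ⟨s, rfl⟩ _ ⟨t, rfl⟩
    exact (Commute.all s t).map ι
  have hstab : ∀ t ∈ Set.range ι, ∀ w ∈ W, t w ∈ W := by
    rintro _ ⟨t, rfl⟩ _ ⟨u, rfl⟩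
    refine ⟨ι t u, ?_⟩
    have := (hcomm (ι x) ⟨x, rfl⟩ (ι t) ⟨t, rfl⟩).eq
    have h3 := congrArg (fun g : Module.End ℂ V => g u) this
    simpa [Module.End.mul_apply] using h3
  obtain ⟨w, hwW, hw0, hwe⟩ := exists_common_eigenvector (Set.range ι) hcomm _ W rfl hWbot hstab
  have hwe' : ∀ t : 𝕋, ∃ c : ℂ, ι t w = c • w := fun t => hwe _ ⟨t, rfl⟩
  choose μ hμ using hwe'
  have hinj : ∀ c d : ℂ, c • w = d • w → c = d := fun c d h => smul_left_injective ℂ hw0 h
  let μ' : 𝕋 →+* ℂ :=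
    { toFun := μ
      map_one' := hinj _ _ (by rw [← hμ, map_one, one_smul, Module.End.one_apply])
      map_mul' := fun s t => hinj _ _ (by
        rw [← hμ, map_mul, Module.End.mul_apply, hμ t, map_smul, hμ s, smul_smul, mul_comm])
      map_zero' := hinj _ _ (by rw [← hμ, map_zero, zero_smul, LinearMap.zero_apply])
      map_add' := fun s t => hinj _ _ (by
        rw [← hμ, map_add, LinearMap.add_apply, hμ s, hμ t, add_smul]) }
  refine ⟨μ', w, hw0, hμ, ?_⟩
  -- `𝔭 ≤ ker μ'`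
  have h𝔭ker : 𝔭 ≤ RingHom.ker μ' := by
    intro t ht
    rw [RingHom.mem_ker]
    obtain ⟨u, rfl⟩ := hwW
    have h1 : ι t (ι x u) = 0 := by
      rw [← Module.End.mul_apply, ← map_mul, (hmem t).mp ht, map_zero, LinearMap.zero_apply]
    have h2 : μ t • ι x u = 0 := by rw [← hμ, h1]
    exact (smul_eq_zero.mp h2).resolve_right hw0
  -- incomparability
  have hint : Algebra.IsIntegral ℤ (𝕋 ⧸ 𝔭) := inferInstance
  have hbot : (RingHom.ker μ').map (Ideal.Quotient.mk 𝔭) = ⊥ := by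
    apply Ideal.eq_bot_of_comap_eq_bot (R := ℤ)
    rw [eq_bot_iff]
    intro n hn
    rw [Ideal.mem_comap] at hn
    have h1 : algebraMap ℤ (𝕋 ⧸ 𝔭) n = Ideal.Quotient.mk 𝔭 (n : 𝕋) := by
      simp
    rw [h1] at hn
    have h2 : (n : 𝕋) ∈ RingHom.ker μ' := by
      have := Ideal.mem_comap.mpr hn
      rw [Ideal.comap_map_of_surjective _ Ideal.Quotient.mk_surjective] at this
      have hle : RingHom.ker μ' ⊔ Ideal.comap (Ideal.Quotient.mk 𝔭) ⊥ ≤ RingHom.ker μ' := by
        refine sup_le le_rfl ?_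
        rw [← RingHom.ker_eq_comap_bot, Ideal.mk_ker]
        exact h𝔭ker
      exact hle this
    rw [RingHom.mem_ker, map_intCast] at h2
    have : n = 0 := by exact_mod_cast h2
    simp [this]
  have hle : RingHom.ker μ' ≤ 𝔭 := by
    rw [Ideal.map_eq_bot_iff_le_ker, Ideal.mk_ker] at hbot
    exact hbot
  exact hle.trans h𝔭le

/-- Abstract Deligne–Serre lifting, part 2 (lying over). -/
theorem exists_maximal_over {𝕋 : Type*} [CommRing 𝕋] [Module.Finite ℤ 𝕋] (μ : 𝕋 →+* ℂ)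
    (𝔪 : Ideal 𝕋) [𝔪.IsPrime] (hker : RingHom.ker μ ≤ 𝔪) (h3 : (3 : 𝕋) ∈ 𝔪) :
    ∃ (μ' : 𝕋 →+* integralClosure ℤ ℂ) (𝔪' : Ideal (integralClosure ℤ ℂ)),
      (∀ t, (μ' t : ℂ) = μ t) ∧ 𝔪'.IsMaximal ∧ ∀ t ∈ 𝔪, μ' t ∈ 𝔪' := by
  have hint : ∀ t : 𝕋, μ t ∈ integralClosure ℤ ℂ := by
    intro t
    have h1 : IsIntegral ℤ t := Algebra.IsIntegral.isIntegral t
    exact h1.map (μ.toIntAlgHom)
  let μ' : 𝕋 →+* integralClosure ℤ ℂ := μ.codRestrict (integralClosure ℤ ℂ).toSubring hint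
  have hμ' : ∀ t, (μ' t : ℂ) = μ t := fun t => rfl
  let _ : Algebra 𝕋 (integralClosure ℤ ℂ) := μ'.toAlgebra
  have hInt : Algebra.IsIntegral 𝕋 (integralClosure ℤ ℂ) := by
    constructor
    intro z
    have hz : IsIntegral ℤ z := Algebra.IsIntegral.isIntegral z
    exact hz.tower_top
  obtain ⟨Q, -, hQprime, hQ⟩ := Ideal.exists_ideal_over_prime_of_isIntegral 𝔪
    (⊥ : Ideal (integralClosure ℤ ℂ)) (by
      intro t ht
      apply hker
      rw [Ideal.mem_comap, Ideal.mem_bot] at ht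
      rw [RingHom.mem_ker, ← hμ']
      have : μ' t = 0 := ht
      rw [this]; rfl)
  have hmemQ : ∀ t ∈ 𝔪, μ' t ∈ Q := by
    intro t ht
    rw [← hQ] at ht
    exact ht
  refine ⟨μ', Q, hμ', ?_, hmemQ⟩
  apply Ideal.isMaximal_of_isIntegral_of_isMaximal_comap (R := ℤ) Q
  have hp : (Q.comap (algebraMap ℤ (integralClosure ℤ ℂ))).IsPrime := Ideal.comap_isPrime _ _
  apply hp.isMaximal
  intro hb
  have : (3 : ℤ) ∈ Q.comap (algebraMap ℤ (integralClosure ℤ ℂ)) := by
    rw [Ideal.mem_comap]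
    have := hmemQ 3 h3
    rw [map_ofNat] at this
    simpa using this
  rw [hb, Ideal.mem_bot] at this
  norm_num at this

end Fermat.Agent.S49
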