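import Mathlib
import Fermat.Prelude.Def_FormalHecke_Eigensystem

set_option autoImplicit false

namespace Fermat.Agent.S49

/-- Formal Hecke relations at all primes imply multiplicativity. -/
theorem mul_of_isEigensystem {R : Type*} [CommRing R] {e a : ℕ → R}
    (h : FormalHecke.IsEigensystem e a) :
    ∀ m n : ℕ, m.Coprime n → a (m * n) = a m * a n := by
  obtain ⟨h1, hrel⟩ := h
  intro m
  induction m using Nat.strong_induction_on with
  | _ m ih =>
    intro n hmn
    rcases Nat.eq_zero_or_pos m with rfl | hmpos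
    · have : n = 1 := by simpa using hmn
      subst this
      simp [h1]
    rcases Nat.eq_or_lt_of_le (Nat.succ_le_of_lt hmpos) with hm1 | hm1
    · have : m = 1 := hm1.symm
      subst this
      simp [h1]
    · obtain ⟨ℓ, hℓ, hℓm⟩ := Nat.exists_prime_and_dvd (n := m) (by omega)
      obtain ⟨m', rfl⟩ := hℓm
      have hm'pos : 0 < m' := Nat.pos_of_ne_zero (by rintro rfl; simp at hmpos)
      have hm'lt : m' < ℓ * m' := by
        have := hℓ.two_le
        nlinarith
      have hcop' : m'.Coprime n := Nat.Coprime.coprime_mul_left hmn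
      have hℓn : ¬ ℓ ∣ n := by
        intro hd
        have : ℓ ∣ Nat.gcd (ℓ * m') n := Nat.dvd_gcd (dvd_mul_right _ _) hd
        rw [hmn] at this
        exact hℓ.one_lt.ne' (Nat.dvd_one.mp this)
      have e1 := hrel ℓ hℓ (m' * n)
      have e2 := hrel ℓ hℓ m'
      have hiff : ℓ ∣ m' * n ↔ ℓ ∣ m' := by
        constructor
        · intro hd
          exact (hℓ.dvd_mul.mp hd).resolve_right hℓn
        · intro hd
          exact dvd_mul_of_dvd_left hd n
      rw [ih m' hm'lt n hcop'] at e1
      by_cases hd : ℓ ∣ m'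
      · rw [if_pos (hiff.mpr hd)] at e1
        rw [if_pos hd] at e2
        obtain ⟨m'', rfl⟩ := hd
        have hℓpos : 0 < ℓ := hℓ.pos
        have hdiv1 : ℓ * m'' * n / ℓ = m'' * n := by
          rw [mul_assoc, Nat.mul_div_cancel_left _ hℓpos]
        have hdiv2 : ℓ * m'' / ℓ = m'' := Nat.mul_div_cancel_left _ hℓpos
        rw [hdiv1] at e1
        rw [hdiv2] at e2
        have hm''lt : m'' < ℓ * (ℓ * m'') := by
          have hm''pos : 0 < m'' := Nat.pos_of_ne_zero (by rintro rfl; simp at hm'pos)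
          have := hℓ.two_le
          nlinarith
        have hcop'' : m''.Coprime n := Nat.Coprime.coprime_mul_left hcop'
        rw [ih m'' hm''lt n hcop''] at e1
        have : a (ℓ * (ℓ * m'') * n) = a (ℓ * (ℓ * m'' * n)) := by ring_nf
        rw [this]
        linear_combination e1 - a n * e2
      · rw [if_neg (fun h => hd (hiff.mp h))] at e1
        rw [if_neg hd] at e2
        have : a (ℓ * m' * n) = a (ℓ * (m' * n)) := by ring_nf
        rw [this]
        linear_combination e1 - a n * e2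

theorem prime_pow_of_isEigensystem {R : Type*} [CommRing R] {e a : ℕ → R}
    (h : FormalHecke.IsEigensystem e a) (ℓ r : ℕ) (hℓ : ℓ.Prime) :
    a (ℓ ^ (r + 2)) = a ℓ * a (ℓ ^ (r + 1)) - e ℓ * a (ℓ ^ r) := by
  have e1 := h.2 ℓ hℓ (ℓ ^ (r + 1))
  rw [if_pos (dvd_pow_self ℓ (Nat.succ_ne_zero r))] at e1
  have h1 : ℓ * ℓ ^ (r + 1) = ℓ ^ (r + 2) := by ring
  have h2 : ℓ ^ (r + 1) / ℓ = ℓ ^ r := by
    rw [pow_succ, Nat.mul_div_cancel _ hℓ.pos]
  rw [h1, h2] at e1
  linear_combination e1

/-- If `a 1 = 0` formally (i.e. relations with eigenvalues `lam`), everything vanishes. -/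
theorem eq_zero_of_relations {R : Type*} [CommRing R] {e lam b : ℕ → R}
    (hrel : ∀ ℓ : ℕ, ℓ.Prime → ∀ n : ℕ,
      b (ℓ * n) + e ℓ * (if ℓ ∣ n then b (n / ℓ) else 0) = lam ℓ * b n)
    (h0 : b 0 = 0) (h1 : b 1 = 0) : ∀ n, b n = 0 := by
  intro n
  induction n using Nat.strong_induction_on with
  | _ n ih =>
    rcases Nat.eq_zero_or_pos n with rfl | hpos
    · exact h0
    rcases Nat.eq_or_lt_of_le (Nat.succ_le_of_lt hpos) with hn1 | hn1
    · have : n = 1 := hn1.symm
      subst this
      exact h1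
    · obtain ⟨ℓ, hℓ, hℓn⟩ := Nat.exists_prime_and_dvd (n := n) (by omega)
      obtain ⟨m, rfl⟩ := hℓn
      have hmpos : 0 < m := Nat.pos_of_ne_zero (by rintro rfl; simp at hpos)
      have hmlt : m < ℓ * m := by
        have := hℓ.two_le
        nlinarith
      have e1 := hrel ℓ hℓ m
      rw [ih m hmlt] at e1
      have hdiv : b (m / ℓ) = 0 := ih _ (lt_of_le_of_lt (Nat.div_le_self _ _) hmlt)
      rw [hdiv] at e1
      simpa using e1

end Fermat.Agent.S49
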