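import Fermat.Agent.S49.Modular
import Fermat.Agent.S49.Formal

set_option autoImplicit false

namespace Fermat.Agent.S49

open ModularFormClass CongruenceSubgroup UpperHalfPlane EisensteinWeightOne

noncomputable section

variable {N : ℕ}

local notation "Γ₀(" N ")" => CongruenceSubgroup.Gamma0 N

theorem exists_normalizedEigenform [NeZero N] (v : CuspForm Γ₀(N) 2) (hv0 : v ≠ 0) (lam : ℕ → ℂ)
    (hT : ∀ (ℓ : ℕ) (hℓ : ℓ.Prime) (hℓN : ¬ ℓ ∣ N), CuspForm.heckeTLin 2 hℓ hℓN v = lam ℓ • v)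
    (hU : ∀ (q : ℕ) (_ : q.Prime) (hqN : q ∣ N), CuspForm.heckeULin 2 hqN v = lam q • v) :
    ∃ g : CuspForm Γ₀(N) 2, g.IsNormalizedEigenform ∧ ∀ ℓ : ℕ, ℓ.Prime → qCoeff ⇑g ℓ = lam ℓ := by
  set e : ℕ → ℂ := fun ℓ => if ℓ ∣ N then 0 else (ℓ : ℂ) with he
  have hrel : ∀ (u : CuspForm Γ₀(N) 2),
      (∀ (ℓ : ℕ) (hℓ : ℓ.Prime) (hℓN : ¬ ℓ ∣ N), CuspForm.heckeTLin 2 hℓ hℓN u = lam ℓ • u) →
      (∀ (q : ℕ) (_ : q.Prime) (hqN : q ∣ N), CuspForm.heckeULin 2 hqN u = lam q • u) →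
      ∀ ℓ : ℕ, ℓ.Prime → ∀ n : ℕ,
      qCoeff ⇑u (ℓ * n) + e ℓ * (if ℓ ∣ n then qCoeff ⇑u (n / ℓ) else 0) =
        lam ℓ * qCoeff ⇑u n := by
    intro u hTu hUu ℓ hℓ n
    by_cases hN : ℓ ∣ N
    · have h1 := congrArg (fun w : CuspForm Γ₀(N) 2 => qCoeff ⇑w n) (hUu ℓ hℓ hN)
      simp only [qCoeff_heckeULin hℓ, qCoeff_smul] at h1
      simp only [he, if_pos hN, zero_mul, add_zero]
      exact h1
    · have h1 := congrArg (fun w : CuspForm Γ₀(N) 2 => qCoeff ⇑w n) (hTu ℓ hℓ hN)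
      simp only [qCoeff_heckeTLin, qCoeff_smul] at h1
      simp only [he, if_neg hN]
      exact h1
  have hb1 : qCoeff ⇑v 1 ≠ 0 := by
    intro h1
    exact hv0 (eq_zero_of_qCoeff v
      (eq_zero_of_relations (hrel v hT hU) (qCoeff_cusp_zero v) h1))
  set g : CuspForm Γ₀(N) 2 := (qCoeff ⇑v 1)⁻¹ • v with hg
  have hTg : ∀ (ℓ : ℕ) (hℓ : ℓ.Prime) (hℓN : ¬ ℓ ∣ N),
      CuspForm.heckeTLin 2 hℓ hℓN g = lam ℓ • g := by
    intro ℓ hℓ hℓN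
    rw [hg, map_smul, hT, smul_comm]
  have hUg : ∀ (q : ℕ) (_ : q.Prime) (hqN : q ∣ N), CuspForm.heckeULin 2 hqN g = lam q • g := by
    intro q hq hqN
    rw [hg, map_smul, hU q hq, smul_comm]
  have hg1 : qCoeff ⇑g 1 = 1 := by
    rw [hg, qCoeff_smul, inv_mul_cancel₀ hb1]
  have hrelg := hrel g hTg hUg
  have hlam : ∀ ℓ : ℕ, ℓ.Prime → qCoeff ⇑g ℓ = lam ℓ := by
    intro ℓ hℓ
    have h1 := hrelg ℓ hℓ 1
    rw [if_neg (by simpa using hℓ.one_lt.ne'), mul_zero, add_zero, mul_one, hg1, mul_one] at h1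
    exact h1
  have heig : FormalHecke.IsEigensystem e (fun n => qCoeff ⇑g n) := by
    refine ⟨hg1, fun ℓ hℓ n => ?_⟩
    show _ = qCoeff ⇑g ℓ * qCoeff ⇑g n
    rw [hlam ℓ hℓ]
    exact hrelg ℓ hℓ n
  refine ⟨g, ⟨hg1, mul_of_isEigensystem heig, ?_, ?_⟩, hlam⟩
  · intro p r hp hpN
    have := prime_pow_of_isEigensystem heig p r hp
    simpa only [he, if_neg hpN] using this
  · intro p r hp hpN
    have := prime_pow_of_isEigensystem heig p r hp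
    simpa only [he, if_pos hpN, zero_mul, sub_zero] using this

end

end Fermat.Agent.S49
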