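import Fermat.Agent.S49.Modular

set_option autoImplicit false

namespace Fermat.Agent.S49

open ModularFormClass CongruenceSubgroup UpperHalfPlane EisensteinWeightOne

noncomputable section

variable {N : ℕ}

local notation "Γ₀(" N ")" => CongruenceSubgroup.Gamma0 N

/-- The data: `f` has integral coefficients `af`, congruent mod 3 to the eigensystem `a`. -/
structure Setup (N : ℕ) (a : ℕ → ℤ) (f : CuspForm Γ₀(N) 2) (af : ℕ → ℤ) : Prop where
  heig : FormalHecke.IsEigensystem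
      (fun ℓ => if ℓ ∣ N then 0 else ((chiNegThree ℓ : ℤ) : ℤ)) a
  haf : ∀ n, (af n : ℂ) = qCoeff ⇑f n
  hcong : ∀ n, (3 : ℤ) ∣ af n - a n

variable {a : ℕ → ℤ} {f : CuspForm Γ₀(N) 2} {af : ℕ → ℤ}

theorem Setup.mem_intLattice (D : Setup N a f af) : f ∈ CuspForm.intLattice N 2 := by
  rw [mem_intLattice_iff]
  exact fun n => ⟨af n, (D.haf n).symm⟩

theorem Setup.heckeT_cong (D : Setup N a f af) {ℓ : ℕ} (hℓ : ℓ.Prime) (hℓN : ¬ ℓ ∣ N) :
    ∃ g ∈ CuspForm.intLattice N 2,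
      CuspForm.heckeTLin 2 hℓ hℓN f - (a ℓ : ℂ) • f = (3 : ℂ) • g := by
  apply exists_third
  intro n
  rw [qCoeff_sub, qCoeff_smul, qCoeff_heckeTLin]
  have hrel := D.heig.2 ℓ hℓ n
  simp only [if_neg hℓN] at hrel
  obtain ⟨k1, hk1⟩ := D.hcong (ℓ * n)
  obtain ⟨k2, hk2⟩ := D.hcong n
  obtain ⟨k3, hk3⟩ := D.hcong (n / ℓ)
  obtain ⟨k4, hk4⟩ := chiNegThree_cong ℓ
  by_cases hd : ℓ ∣ n
  · rw [if_pos hd] at hrel ⊢
    refine ⟨k1 + (ℓ : ℤ) * k3 + k4 * a (n / ℓ) - a ℓ * k2, ?_⟩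
    rw [← D.haf, ← D.haf, ← D.haf]
    have : af (ℓ * n) + (ℓ : ℤ) * af (n / ℓ) - a ℓ * af n =
        3 * (k1 + (ℓ : ℤ) * k3 + k4 * a (n / ℓ) - a ℓ * k2) := by
      linear_combination hk1 + (ℓ : ℤ) * hk3 - a ℓ * hk2 + a (n / ℓ) * hk4 + hrel
    exact_mod_cast this
  · rw [if_neg hd] at hrel ⊢
    refine ⟨k1 - a ℓ * k2, ?_⟩
    rw [← D.haf, ← D.haf]
    have : af (ℓ * n) + (ℓ : ℤ) * 0 - a ℓ * af n = 3 * (k1 - a ℓ * k2) := by
      linear_combination hk1 - a ℓ * hk2 + hrel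
    exact_mod_cast this

theorem Setup.heckeU_cong [NeZero N] (D : Setup N a f af) {q : ℕ} (hq : q.Prime) (hqN : q ∣ N) :
    ∃ g ∈ CuspForm.intLattice N 2,
      CuspForm.heckeULin 2 hqN f - (a q : ℂ) • f = (3 : ℂ) • g := by
  apply exists_third
  intro n
  rw [qCoeff_sub, qCoeff_smul, qCoeff_heckeULin hq]
  have hrel := D.heig.2 q hq n
  simp only [if_pos hqN, zero_mul, add_zero] at hrel
  obtain ⟨k1, hk1⟩ := D.hcong (q * n)
  obtain ⟨k2, hk2⟩ := D.hcong n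
  refine ⟨k1 - a q * k2, ?_⟩
  rw [← D.haf, ← D.haf]
  have : af (q * n) - a q * af n = 3 * (k1 - a q * k2) := by
    linear_combination hk1 - a q * hk2 + hrel
  exact_mod_cast this

/-- Every Hecke operator acts on `f` as an integer scalar modulo `3 L`. -/
theorem Setup.eigen_mod_three [NeZero N] (D : Setup N a f af)
    (t : Module.End ℂ (CuspForm Γ₀(N) 2)) (ht : t ∈ CuspForm.heckeAlgebra N 2 ∅) :
    ∃ c : ℤ, ∃ g ∈ CuspForm.intLattice N 2, t f = (c : ℂ) • f + (3 : ℂ) • g := by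
  refine Algebra.adjoin_induction (p := fun t _ => ∃ c : ℤ, ∃ g ∈ CuspForm.intLattice N 2,
    t f = (c : ℂ) • f + (3 : ℂ) • g) ?_ ?_ ?_ ?_ ht
  · rintro x (⟨ℓ, hℓ, hℓN, -, rfl⟩ | ⟨q, hqN, hq, -, rfl⟩)
    · obtain ⟨g, hg, h⟩ := D.heckeT_cong hℓ hℓN
      exact ⟨a ℓ, g, hg, by rw [← h]; abel⟩
    · obtain ⟨g, hg, h⟩ := D.heckeU_cong hq hqN
      exact ⟨a q, g, hg, by rw [← h]; abel⟩
  · intro r
    refine ⟨r, 0, zero_mem _, ?_⟩
    rw [Algebra.algebraMap_eq_smul_one, LinearMap.smul_apply, Module.End.one_apply, smul_zero,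
      add_zero, Int.cast_smul_eq_zsmul]
  · rintro x y _ _ ⟨c, g, hg, h⟩ ⟨c', g', hg', h'⟩
    refine ⟨c + c', g + g', add_mem hg hg', ?_⟩
    rw [LinearMap.add_apply, h, h', Int.cast_add, add_smul, smul_add]
    abel
  · rintro x y hx _ ⟨c, g, hg, h⟩ ⟨c', g', hg', h'⟩
    refine ⟨c * c', c' • g + x g', add_mem (Submodule.smul_mem _ _ hg)
      (CuspForm.mem_intLattice_of_mem_heckeAlgebra (by norm_num) hx hg'), ?_⟩
    rw [Module.End.mul_apply, h', map_add, map_smul, map_smul, h, Int.cast_mul, smul_add,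
      smul_add, smul_smul, smul_smul, ← Int.cast_smul_eq_zsmul ℂ c' g, smul_smul]
    rw [mul_comm (c' : ℂ) (c : ℂ), mul_comm (c' : ℂ) 3]
    abel

theorem Setup.three_dvd_of_smul (D : Setup N a f af) (c : ℤ) (g : CuspForm Γ₀(N) 2)
    (hg : g ∈ CuspForm.intLattice N 2) (h : (c : ℂ) • f = (3 : ℂ) • g) : (3 : ℤ) ∣ c := by
  obtain ⟨m, hm⟩ := (mem_intLattice_iff g).mp hg 1
  have h1 := congrArg (fun u : CuspForm Γ₀(N) 2 => qCoeff ⇑u 1) h
  simp only [qCoeff_smul, hm, ← D.haf] at h1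
  have h2 : c * af 1 = 3 * m := by exact_mod_cast h1
  obtain ⟨k, hk⟩ := D.hcong 1
  rw [D.heig.1] at hk
  refine ⟨m - c * k, ?_⟩
  linear_combination h2 - c * hk

/-- The ideal of Hecke operators killing `f` modulo `3 L`. -/
def eigenIdeal [NeZero N] (f : CuspForm Γ₀(N) 2) : Ideal (CuspForm.heckeAlgebra N 2 ∅) where
  carrier := {t | ∃ g ∈ CuspForm.intLattice N 2,
    (t : Module.End ℂ (CuspForm Γ₀(N) 2)) f = (3 : ℂ) • g}
  add_mem' := by
    rintro s t ⟨g, hg, h⟩ ⟨g', hg', h'⟩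
    refine ⟨g + g', add_mem hg hg', ?_⟩
    show ((s : Module.End ℂ (CuspForm Γ₀(N) 2)) + t) f = _
    rw [LinearMap.add_apply, h, h', smul_add]
  zero_mem' := ⟨0, zero_mem _, by
    show (0 : Module.End ℂ (CuspForm Γ₀(N) 2)) f = _
    simp⟩
  smul_mem' := by
    rintro s t ⟨g, hg, h⟩
    refine ⟨(s : Module.End ℂ (CuspForm Γ₀(N) 2)) g,
      CuspForm.mem_intLattice_of_mem_heckeAlgebra (by norm_num) s.2 hg, ?_⟩
    show ((s : Module.End ℂ (CuspForm Γ₀(N) 2)) * t) f = _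
    rw [Module.End.mul_apply, h, map_smul]

theorem mem_eigenIdeal [NeZero N] (f : CuspForm Γ₀(N) 2) (t : CuspForm.heckeAlgebra N 2 ∅) :
    t ∈ eigenIdeal f ↔ ∃ g ∈ CuspForm.intLattice N 2,
      (t : Module.End ℂ (CuspForm Γ₀(N) 2)) f = (3 : ℂ) • g := Iff.rfl

theorem Setup.eigenIdeal_isPrime [NeZero N] (D : Setup N a f af) : (eigenIdeal f).IsPrime := by
  have key : ∀ t : CuspForm.heckeAlgebra N 2 ∅, ∀ c : ℤ, ∀ g ∈ CuspForm.intLattice N 2,
      (t : Module.End ℂ (CuspForm Γ₀(N) 2)) f = (c : ℂ) • f + (3 : ℂ) • g →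
      (t ∈ eigenIdeal f ↔ (3 : ℤ) ∣ c) := by
    intro t c g hg h
    constructor
    · rintro ⟨g', hg', h'⟩
      apply D.three_dvd_of_smul c (g' - g) (sub_mem hg' hg)
      rw [smul_sub, ← h', h]
      abel
    · rintro ⟨k, rfl⟩
      refine ⟨k • f + g, add_mem (Submodule.smul_mem _ _ D.mem_intLattice) hg, ?_⟩
      rw [h, smul_add, ← Int.cast_smul_eq_zsmul ℂ k f, smul_smul]
      push_cast
      rfl
  constructor
  · intro htop
    have h1 : (1 : CuspForm.heckeAlgebra N 2 ∅) ∈ eigenIdeal f := by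
      rw [htop]; trivial
    have := (key 1 1 0 (zero_mem _) (by
      show (1 : Module.End ℂ (CuspForm Γ₀(N) 2)) f = _
      simp)).mp h1
    norm_num at this
  · intro s t hst
    obtain ⟨c, g, hg, h⟩ := D.eigen_mod_three s s.2
    obtain ⟨c', g', hg', h'⟩ := D.eigen_mod_three t t.2
    have hprod : ((s * t : CuspForm.heckeAlgebra N 2 ∅) : Module.End ℂ (CuspForm Γ₀(N) 2)) f =
        ((c * c' : ℤ) : ℂ) • f + (3 : ℂ) • (c' • g + (s : Module.End ℂ (CuspForm Γ₀(N) 2)) g') := by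
      show ((s : Module.End ℂ (CuspForm Γ₀(N) 2)) * t) f = _
      rw [Module.End.mul_apply, h', map_add, map_smul, map_smul, h, Int.cast_mul, smul_add,
        smul_add, smul_smul, smul_smul, ← Int.cast_smul_eq_zsmul ℂ c' g, smul_smul]
      rw [mul_comm (c' : ℂ) (c : ℂ), mul_comm (c' : ℂ) 3]
      abel
    have h3 := (key (s * t) (c * c') _ (add_mem (Submodule.smul_mem _ _ hg)
      (CuspForm.mem_intLattice_of_mem_heckeAlgebra (by norm_num) s.2 hg')) hprod).mp hst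
    rcases (Int.prime_three.dvd_mul).mp h3 with h4 | h4
    · exact Or.inl ((key s c g hg h).mpr h4)
    · exact Or.inr ((key t c' g' hg' h').mpr h4)

end

end Fermat.Agent.S49
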